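import Fermat.Statements.S54

set_option autoImplicit false
open GaloisRep GaloisRep.DeformationRingData Polynomial

namespace Fermat.Agent.S54

/-- The trace of an endomorphism of a free rank-2 module whose characteristic polynomial is
`X ^ 2 - C a * X + C b` is `a`. -/
theorem trace_eq_of_charpoly_eq {R : Type} [CommRing R] [Nontrivial R] {M : Type} [AddCommGroup M]
    [Module R M] [Module.Free R M] [Module.Finite R M] (hM : Module.finrank R M = 2)
    (f : Module.End R M) (a b : R)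
    (h : LinearMap.charpoly f = X ^ 2 - C a * X + C b) : LinearMap.trace R M f = a := by
  classical
  let bas := Module.Free.chooseBasis R M
  have hcard : Fintype.card (Module.Free.ChooseBasisIndex R M) = 2 := by
    rw [← Module.finrank_eq_card_chooseBasisIndex, hM]
  have : Nonempty (Module.Free.ChooseBasisIndex R M) := by
    rw [← Fintype.card_pos_iff, hcard]; norm_num
  rw [LinearMap.trace_eq_matrix_trace R bas f, Matrix.trace_eq_neg_charpoly_coeff, hcard,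
    LinearMap.charpoly_toMatrix, h]
  simp [Polynomial.coeff_C]


/-- `R ↠ T` from the existence of Frobenius elements. -/
theorem result_of_frob
    (hFrob : ∀ ℓ : ℕ, ℓ.Prime → ∃ (A : ValuationSubring (AlgebraicClosure ℚ))
      (σ : AlgebraicClosure ℚ ≃ₐ[ℚ] AlgebraicClosure ℚ), A.LiesOverPrime ℓ ∧ A.IsFrobeniusAt σ ℓ)
    {𝒪 : Type} [CommRing 𝒪] [IsDomain 𝒪] [IsDiscreteValuationRing 𝒪]
    [IsAdicComplete (IsLocalRing.maximalIdeal 𝒪) 𝒪]
    {ρbar : ResidualGaloisRep (IsLocalRing.ResidueField 𝒪)}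
    {𝒟 : ∀ ⦃A : Type⦄ [CommRing A] [IsLocalRing A] [Algebra 𝒪 A], GaloisRepAdic A → Prop}
    (D : GaloisRep.DeformationRingData 𝒪 ρbar 𝒟) {N : ℕ} [NeZero N] {S : Set ℕ}
    {θ : CuspForm.heckeAlgebra N 2 S →+* IsLocalRing.ResidueField 𝒪} {T : Type} [CommRing T]
    [IsLocalRing T] [IsNoetherianRing T] [IsAdicComplete (IsLocalRing.maximalIdeal T) T]
    [Algebra 𝒪 T] [IsLocalHom (algebraMap 𝒪 T)] [Module.Finite 𝒪 T] [Module.Free 𝒪 T]
    (H : CuspForm.HeckeGaloisRepDatum N S 𝒪 θ T) (hS : ∀ q : ℕ, q.Prime → q ∣ N → q ∈ S)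
    (h𝒟 : 𝒟 H.ρ)
    (hres : H.ρ.residual.IsEquiv
      (ρbar.baseChangeAlong (IsLocalRing.ResidueField.map (algebraMap 𝒪 T)))) :
    ∃ φ : D.R →ₐ[𝒪] T, Function.Surjective φ ∧ ∃ hφ : IsLocalHom (φ : D.R →+* T),
      (D.ρ.baseChangeAlong (φ : D.R →+* T) hφ).IsEquiv H.ρ := by
  obtain ⟨φ, ⟨hφ, ⟨e⟩⟩, -⟩ := D.universal T H.residue_surjective H.ρ h𝒟 hres
  refine ⟨φ, ?_, hφ, ⟨e⟩⟩
  -- the Hecke operators `T_ℓ` land in the range of `φ`
  have hT : ∀ (ℓ : ℕ) (hℓ : ℓ.Prime) (hℓN : ¬ ℓ ∣ N) (hℓS : ℓ ∉ S),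
      H.π (CuspForm.heckeAlgebra.T hℓ hℓN hℓS) ∈ φ.range := by
    intro ℓ hℓ hℓN hℓS
    obtain ⟨A, σ, hA, hσ⟩ := hFrob ℓ hℓ
    have hcp := H.charpoly_frob ℓ hℓ hℓN hℓS A hA σ hσ
    have htr := trace_eq_of_charpoly_eq H.ρ.finrank_eq (H.ρ.ρ σ) _ _ hcp
    have hconj : H.ρ.ρ σ = e.toLinearEquiv.conj ((D.ρ.baseChangeAlong (φ : D.R →+* T) hφ).ρ σ) := by
      apply LinearMap.ext
      intro x
      rw [LinearEquiv.conj_apply_apply, e.map_apply, LinearEquiv.apply_symm_apply]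
    have h1 : LinearMap.trace T H.ρ.V (H.ρ.ρ σ) =
        LinearMap.trace T (D.ρ.baseChangeAlong (φ : D.R →+* T) hφ).V
          ((D.ρ.baseChangeAlong (φ : D.R →+* T) hφ).ρ σ) := by
      rw [hconj, LinearMap.trace_conj']
    have h2 : LinearMap.trace T (D.ρ.baseChangeAlong (φ : D.R →+* T) hφ).V
          ((D.ρ.baseChangeAlong (φ : D.R →+* T) hφ).ρ σ) =
        φ (LinearMap.trace D.R D.ρ.V (D.ρ.ρ σ)) := by
      letI : Algebra D.R T := (φ : D.R →+* T).toAlgebra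
      exact LinearMap.trace_baseChange (D.ρ.ρ σ) T
    exact ⟨_, (htr.symm.trans (h1.trans h2)).symm⟩
  have hrange : ∀ t : CuspForm.heckeAlgebra N 2 S, H.π t ∈ φ.range := by
    rintro ⟨x, hx⟩
    induction hx using Algebra.adjoin_induction with
    | mem x hx =>
      rcases hx with ⟨ℓ, hℓ, hℓN, hℓS, rfl⟩ | ⟨q, hqN, hq, hqS, rfl⟩
      · exact hT ℓ hℓ hℓN hℓS
      · exact absurd (hS q hq hqN) hqS
    | algebraMap r =>
      have : (⟨algebraMap ℤ _ r, Subalgebra.algebraMap_mem _ r⟩ : CuspForm.heckeAlgebra N 2 S) =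
          algebraMap ℤ (CuspForm.heckeAlgebra N 2 S) r := rfl
      rw [this, eq_intCast, map_intCast]
      exact intCast_mem _ r
    | add x y hx hy ihx ihy =>
      have : (⟨x + y, Subalgebra.add_mem _ hx hy⟩ : CuspForm.heckeAlgebra N 2 S) =
          ⟨x, hx⟩ + ⟨y, hy⟩ := rfl
      rw [this, map_add]
      exact Subalgebra.add_mem _ ihx ihy
    | mul x y hx hy ihx ihy =>
      have : (⟨x * y, Subalgebra.mul_mem _ hx hy⟩ : CuspForm.heckeAlgebra N 2 S) =
          ⟨x, hx⟩ * ⟨y, hy⟩ := rfl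
      rw [this, map_mul]
      exact Subalgebra.mul_mem _ ihx ihy
  have htop : (⊤ : Subalgebra 𝒪 T) ≤ φ.range := by
    rw [← H.adjoin_range_π]
    exact Algebra.adjoin_le (by rintro _ ⟨t, rfl⟩; exact hrange t)
  intro t
  exact htop Algebra.mem_top

end Fermat.Agent.S54
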